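import Mathlib
import Fermat.Prelude.Def_FLTPrelim_Modularity
import Fermat.Prelude.Def_CuspForm_IntegralStructure
import Fermat.Prelude.Def_CuspForm_HeckeAlgebra
import Fermat.Prelude.Thm_CongruenceSubgroup_one_mem_strictPeriods_Gamma0
import Fermat.Prelude.Thm_ModularFormClass_qCoeff_heckeT
import Fermat.Prelude.Thm_ModularFormClass_qCoeff_heckeU
import Fermat.Prelude.Thm_ModularForm_sturm_bound_Gamma0

set_option autoImplicit false

open ModularFormClass CongruenceSubgroup UpperHalfPlane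

namespace Fermat.Agent.H7

variable {N : ℕ} {k : ℤ}

theorem hΓ0 (N : ℕ) :
    (1 : ℝ) ∈ (Subgroup.map (Matrix.SpecialLinearGroup.mapGL ℝ) (Gamma0 N)).strictPeriods :=
  CongruenceSubgroup.one_mem_strictPeriods_Gamma0 N

theorem qCoeff_add (f g : CuspForm (Gamma0 N) k) (n : ℕ) :
    qCoeff ⇑(f + g) n = qCoeff ⇑f n + qCoeff ⇑g n := by
  simp only [qCoeff, FunLike.coe_add]
  rw [ModularForm.qExpansion_add one_pos (hΓ0 N) f g, map_add]

theorem qCoeff_zero_form (n : ℕ) : qCoeff ⇑(0 : CuspForm (Gamma0 N) k) n = 0 := by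
  simp only [qCoeff, FunLike.coe_zero]
  rw [UpperHalfPlane.qExpansion_zero, map_zero]

theorem qCoeff_smul (c : ℂ) (f : CuspForm (Gamma0 N) k) (n : ℕ) :
    qCoeff ⇑(c • f) n = c * qCoeff ⇑f n := by
  have h1 : ⇑(c • f) = c • ⇑f := by
    ext z
    simp
  simp only [qCoeff, h1]
  rw [ModularForm.qExpansion_smul one_pos (hΓ0 N) c f]
  simp

theorem qCoeff_sub (f g : CuspForm (Gamma0 N) k) (n : ℕ) :
    qCoeff ⇑(f - g) n = qCoeff ⇑f n - qCoeff ⇑g n := by
  have : f - g = f + (-1 : ℂ) • g := by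
    rw [_root_.neg_smul, one_smul, sub_eq_add_neg]
  rw [this, qCoeff_add, qCoeff_smul]
  ring

theorem qCoeff_at_zero (f : CuspForm (Gamma0 N) k) : qCoeff ⇑f 0 = 0 :=
  CuspFormClass.qExpansion_coeff_zero f one_pos (hΓ0 N)

theorem eq_zero_of_qCoeff_eq_zero [NeZero N] (f : CuspForm (Gamma0 N) k)
    (h : ∀ n, qCoeff ⇑f n = 0) : f = 0 := by
  have hmf : (ModularFormClass.modularForm f : ModularForm (Gamma0 N) k) = 0 := by
    refine ModularForm.sturm_bound_Gamma0 N _ fun n _ ↦ ?_
    simpa [qCoeff] using h n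
  have hcoe : (⇑f : ℍ → ℂ) = 0 := by
    have := congrArg (fun F : ModularForm (Gamma0 N) k ↦ (⇑F : ℍ → ℂ)) hmf
    simpa using this
  exact DFunLike.coe_injective (hcoe.trans FunLike.coe_zero.symm)

theorem qCoeff_heckeTLin {p : ℕ} (hp : p.Prime) (hpN : ¬ p ∣ N) (f : CuspForm (Gamma0 N) k)
    (n : ℕ) :
    qCoeff ⇑(CuspForm.heckeTLin k hp hpN f) n =
      qCoeff ⇑f (p * n) + (if p ∣ n then (p : ℂ) ^ (k - 1) * qCoeff ⇑f (n / p) else 0) := by
  rw [CuspForm.coe_heckeTLin_apply, ModularFormClass.qCoeff_heckeT f (hΓ0 N) hp.ne_zero n,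
    ModularForm.coeffHeckeT_apply, mul_comm n p]

theorem qCoeff_heckeULin [NeZero N] {p : ℕ} (hp : p.Prime) (hpN : p ∣ N)
    (f : CuspForm (Gamma0 N) k) (n : ℕ) :
    qCoeff ⇑(CuspForm.heckeULin k hpN f) n = qCoeff ⇑f (p * n) := by
  rw [CuspForm.coe_heckeULin_apply, ModularFormClass.qCoeff_heckeU f (hΓ0 N) hp.ne_zero n,
    ModularForm.coeffHeckeU_apply, mul_comm n p]

theorem mem_intLattice_iff (f : CuspForm (Gamma0 N) k) :
    f ∈ CuspForm.intLattice N k ↔ ∀ n : ℕ, ∃ m : ℤ, qCoeff f n = (m : ℂ) := by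
  constructor
  · intro hf
    unfold CuspForm.intLattice at hf
    induction hf using Submodule.span_induction with
    | mem x hx => exact hx
    | zero => intro n; exact ⟨0, by rw [qCoeff_zero_form]; simp⟩
    | add x y _ _ hx hy =>
      intro n
      obtain ⟨a, ha⟩ := hx n
      obtain ⟨b, hb⟩ := hy n
      exact ⟨a + b, by rw [qCoeff_add, ha, hb]; push_cast; ring⟩
    | smul c x _ hx =>
      intro n
      obtain ⟨a, ha⟩ := hx n
      refine ⟨c * a, ?_⟩
      have : c • x = (c : ℂ) • x := by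
        rw [Int.cast_smul_eq_zsmul]
      rw [this, qCoeff_smul, ha]; push_cast; ring
  · intro hf
    exact Submodule.subset_span hf

/-- Finite-dimensionality of the space of cusp forms, via the Sturm bound. -/
theorem finiteDimensional_cuspForm (N : ℕ) [NeZero N] (k : ℤ) :
    FiniteDimensional ℂ (CuspForm (Gamma0 N) k) := by
  set B : ℕ := (k * (Gamma0 N).index).toNat / 12 with hB
  let tr : CuspForm (Gamma0 N) k →ₗ[ℂ] (Fin (B + 1) → ℂ) :=
    { toFun := fun f i => qCoeff ⇑f i
      map_add' := fun f g => by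
        funext i
        exact qCoeff_add f g i
      map_smul' := fun c f => by
        funext i
        simp only [Pi.smul_apply, RingHom.id_apply, smul_eq_mul]
        exact qCoeff_smul c f i }
  have hinj : Function.Injective tr := by
    refine (injective_iff_map_eq_zero _).mpr fun f hf ↦ ?_
    have hmf : (ModularFormClass.modularForm f : ModularForm (Gamma0 N) k) = 0 := by
      refine ModularForm.sturm_bound_Gamma0 N _ fun n hn ↦ ?_
      have := congrFun hf ⟨n, Nat.lt_succ_of_le hn⟩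
      simpa [tr, qCoeff] using this
    have hcoe : (⇑f : ℍ → ℂ) = 0 := by
      have := congrArg (fun F : ModularForm (Gamma0 N) k ↦ (⇑F : ℍ → ℂ)) hmf
      simpa using this
    exact DFunLike.coe_injective (hcoe.trans FunLike.coe_zero.symm)
  exact FiniteDimensional.of_injective tr hinj

end Fermat.Agent.H7
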