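import Mathlib

set_option autoImplicit false

namespace Fermat.Agent.H7

/-- Multiplicativity of a formal Hecke eigensystem. -/
theorem formal_mul_of_coprime {R : Type*} [CommRing R] (e c : ℕ → R) (h1 : c 1 = 1)
    (hrel : ∀ ℓ : ℕ, ℓ.Prime → ∀ n : ℕ,
      c (ℓ * n) + e ℓ * (if ℓ ∣ n then c (n / ℓ) else 0) = c ℓ * c n) :
    ∀ m n : ℕ, m.Coprime n → c (m * n) = c m * c n := by
  intro m
  induction m using Nat.strong_induction_on with
  | _ m ih =>
    intro n hmn
    rcases Nat.lt_or_ge m 2 with hm | hm
    · interval_cases m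
      · have : n = 1 := by simpa using hmn
        subst this
        simp [h1]
      · simp [h1]
    · have hm1 : m ≠ 1 := by omega
      set ℓ := m.minFac with hℓdef
      have hℓ : ℓ.Prime := Nat.minFac_prime hm1
      obtain ⟨m', hm'⟩ : ℓ ∣ m := Nat.minFac_dvd m
      have hm'pos : 0 < m' := by
        rcases Nat.eq_zero_or_pos m' with h | h
        · subst h; omega
        · exact h
      have hm'lt : m' < m := by
        rw [hm']
        exact lt_mul_of_one_lt_left hm'pos hℓ.one_lt
      have hcop' : m'.Coprime n := Nat.Coprime.coprime_dvd_left ⟨ℓ, by rw [hm', mul_comm]⟩ hmn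
      have hℓn : ¬ ℓ ∣ n := by
        intro h
        have : ℓ ∣ Nat.gcd m n := Nat.dvd_gcd (Nat.minFac_dvd m) h
        rw [hmn] at this
        exact hℓ.one_lt.ne' (Nat.dvd_one.mp this)
      have e1 := hrel ℓ hℓ (m' * n)
      have e2 := hrel ℓ hℓ m'
      have ih1 := ih m' hm'lt n hcop'
      by_cases hd : ℓ ∣ m'
      · obtain ⟨m'', hm''⟩ := hd
        have hm''lt : m'' < m := by
          have : m'' ≤ m' := by
            rw [hm'']; exact Nat.le_mul_of_pos_left _ hℓ.pos
          omega
        have hcop'' : m''.Coprime n :=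
          Nat.Coprime.coprime_dvd_left ⟨ℓ, by rw [hm'', mul_comm]⟩ hcop'
        have ih2 := ih m'' hm''lt n hcop''
        have hd1 : ℓ ∣ m' * n := ⟨m'' * n, by rw [hm'']; ring⟩
        have hd2 : ℓ ∣ m' := ⟨m'', hm''⟩
        have q1 : m' * n / ℓ = m'' * n := by
          rw [hm'', mul_assoc]; exact Nat.mul_div_cancel_left _ hℓ.pos
        have q2 : m' / ℓ = m'' := by
          rw [hm'']; exact Nat.mul_div_cancel_left _ hℓ.pos
        rw [if_pos hd1, q1, ih1, ih2] at e1
        rw [if_pos hd2, q2] at e2
        have : m * n = ℓ * (m' * n) := by rw [hm']; ring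
        rw [this, hm']
        linear_combination e1 - c n * e2
      · have hd1 : ¬ ℓ ∣ m' * n := by
          intro h
          rcases (Nat.Prime.dvd_mul hℓ).mp h with h | h
          · exact hd h
          · exact hℓn h
        rw [if_neg hd1, ih1] at e1
        rw [if_neg hd] at e2
        have : m * n = ℓ * (m' * n) := by rw [hm']; ring
        rw [this, hm']
        linear_combination e1 - c n * e2

/-- If the first coefficient of a formal eigen-sequence vanishes, all positive coefficients do. -/
theorem formal_eq_zero_of_one_eq_zero {R : Type*} [CommRing R] (e lam c : ℕ → R) (h1 : c 1 = 0)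
    (hrel : ∀ ℓ : ℕ, ℓ.Prime → ∀ n : ℕ,
      c (ℓ * n) + e ℓ * (if ℓ ∣ n then c (n / ℓ) else 0) = lam ℓ * c n) :
    ∀ n : ℕ, 0 < n → c n = 0 := by
  intro n
  induction n using Nat.strong_induction_on with
  | _ n ih =>
    intro hn
    rcases Nat.lt_or_ge n 2 with hn2 | hn2
    · have : n = 1 := by omega
      subst this; exact h1
    · have hn1 : n ≠ 1 := by omega
      set ℓ := n.minFac with hℓdef
      have hℓ : ℓ.Prime := Nat.minFac_prime hn1
      obtain ⟨m, hm⟩ : ℓ ∣ n := Nat.minFac_dvd n
      have hmpos : 0 < m := by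
        rcases Nat.eq_zero_or_pos m with h | h
        · subst h; omega
        · exact h
      have hmlt : m < n := by
        rw [hm]
        exact lt_mul_of_one_lt_left hmpos hℓ.one_lt
      have e1 := hrel ℓ hℓ m
      rw [ih m hmlt hmpos] at e1
      by_cases hd : ℓ ∣ m
      · obtain ⟨m', hm'⟩ := hd
        have hm'pos : 0 < m' := by
          rcases Nat.eq_zero_or_pos m' with h | h
          · subst h; omega
          · exact h
        have hm'lt : m' < n := by
          have : m' ≤ m := by
            rw [hm']; exact Nat.le_mul_of_pos_left _ hℓ.pos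
          omega
        have q : m / ℓ = m' := by
          rw [hm']; exact Nat.mul_div_cancel_left _ hℓ.pos
        rw [if_pos ⟨m', hm'⟩, q, ih m' hm'lt hm'pos] at e1
        rw [hm]
        simpa using e1
      · rw [if_neg hd] at e1
        rw [hm]
        simpa using e1

/-- Common eigenvector for a commuting family stabilising a nonzero subspace. -/
theorem exists_common_eigenvector {V : Type*} [AddCommGroup V] [Module ℂ V]
    [FiniteDimensional ℂ V] (S : Set (Module.End ℂ V))
    (hcomm : ∀ s ∈ S, ∀ t ∈ S, Commute s t) :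
    ∀ (d : ℕ) (W : Submodule ℂ V), Module.finrank ℂ W = d → W ≠ ⊥ →
      (∀ s ∈ S, ∀ w ∈ W, s w ∈ W) →
      ∃ w ∈ W, w ≠ 0 ∧ ∀ s ∈ S, ∃ c : ℂ, s w = c • w := by
  intro d
  induction d using Nat.strong_induction_on with
  | _ d ih =>
    intro W hd hW hstab
    by_cases hsc : ∀ s ∈ S, ∃ c : ℂ, ∀ w ∈ W, s w = c • w
    · obtain ⟨w, hw, hw0⟩ := Submodule.exists_mem_ne_zero_of_ne_bot hW
      refine ⟨w, hw, hw0, fun s hs => ?_⟩
      obtain ⟨c, hc⟩ := hsc s hs
      exact ⟨c, hc w hw⟩
    · push Not at hsc
      obtain ⟨s, hs, hns⟩ := hsc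
      have : Nontrivial W := Submodule.nontrivial_iff_ne_bot.mpr hW
      obtain ⟨c, hc⟩ := Module.End.exists_eigenvalue (s.restrict (hstab s hs))
      obtain ⟨w0, hw0⟩ := hc.exists_hasEigenvector
      have hw0eq : s (w0 : V) = c • (w0 : V) := by
        have := hw0.apply_eq_smul
        have := congrArg Subtype.val this
        simpa using this
      have hw0ne : (w0 : V) ≠ 0 := by
        intro h
        exact hw0.2 (Subtype.ext h)
      set W' : Submodule ℂ V := W ⊓ LinearMap.ker (s - c • (1 : Module.End ℂ V)) with hW'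
      have hmem : ∀ w, w ∈ W' ↔ w ∈ W ∧ s w = c • w := by
        intro w
        simp [hW', Submodule.mem_inf, LinearMap.mem_ker, sub_eq_zero]
      have hW'ne : W' ≠ ⊥ := by
        intro h
        have : (w0 : V) ∈ W' := (hmem _).2 ⟨w0.2, hw0eq⟩
        rw [h] at this
        exact hw0ne ((Submodule.mem_bot ℂ).1 this)
      have hW'lt : W' < W := by
        refine lt_of_le_of_ne inf_le_left ?_
        intro h
        obtain ⟨w, hw, hne⟩ := hns c
        rw [← h] at hw
        exact hne ((hmem w).1 hw).2
      have hstab' : ∀ t ∈ S, ∀ w ∈ W', t w ∈ W' := by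
        intro t ht w hw
        obtain ⟨hwW, hsw⟩ := (hmem w).1 hw
        refine (hmem _).2 ⟨hstab t ht w hwW, ?_⟩
        have hc' : s (t w) = t (s w) := by
          have := hcomm s hs t ht
          have := congrArg (fun f : Module.End ℂ V => f w) this.eq
          simpa using this
        rw [hc', hsw, map_smul]
      have hlt : Module.finrank ℂ W' < d := by
        rw [← hd]
        exact Submodule.finrank_lt_finrank_of_lt hW'lt
      obtain ⟨w, hw, hw0', hall⟩ := ih _ hlt W' rfl hW'ne hstab'
      exact ⟨w, ((hmem w).1 hw).1, hw0', hall⟩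

end Fermat.Agent.H7
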