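import Mathlib
import Fermat.Agent.H7.FormalHecke

set_option autoImplicit false

namespace Fermat.Agent.H7

/-- Abstract Deligne–Serre lifting lemma. -/
theorem abstract_lifting {V : Type*} [AddCommGroup V] [Module ℂ V] [FiniteDimensional ℂ V]
    {T : Type*} [CommRing T] [Module.Finite ℤ T] (ρ : T →+* Module.End ℂ V)
    (hρ : Function.Injective ρ) (I : Ideal T) (hI : I ≠ ⊤) :
    ∃ (w : V) (μ : T →+* integralClosure ℤ ℂ) (𝔪' : Ideal (integralClosure ℤ ℂ)),
      w ≠ 0 ∧ (∀ t, ρ t w = ((μ t : integralClosure ℤ ℂ) : ℂ) • w) ∧ 𝔪'.IsMaximal ∧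
        I ≤ 𝔪'.comap μ := by
  classical
  obtain ⟨𝔪₁, hmax, hle⟩ := Ideal.exists_le_maximal I hI
  have hNoeth : IsNoetherianRing T := by
    have h1 : IsNoetherian ℤ T := isNoetherian_of_isNoetherianRing_of_finite ℤ T
    exact isNoetherian_of_tower ℤ h1
  have hInt : Algebra.IsIntegral ℤ T := inferInstance
  have hprime : 𝔪₁.IsPrime := hmax.isPrime
  obtain ⟨𝔭, h𝔭min, h𝔭le⟩ := Ideal.exists_minimalPrimes_le (I := ⊥) (J := 𝔪₁) bot_le
  have h𝔭prime : 𝔭.IsPrime := h𝔭min.1.1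
  have hcol : (⊥ : Submodule T T).colon {(1 : T)} = ⊥ := by
    ext t
    simp [Submodule.mem_colon_singleton]
  obtain ⟨e, he⟩ := Submodule.exists_eq_colon_of_mem_minimalPrimes
    (N := (⊥ : Submodule T T)) (x := (1 : T)) (I := 𝔭) (by rw [hcol]; exact h𝔭min)
  have hmem𝔭 : ∀ t, t ∈ 𝔭 ↔ t * e = 0 := by
    intro t
    rw [he, Submodule.mem_colon_singleton]
    simp
  have he0 : e ≠ 0 := by
    intro h
    apply h𝔭prime.ne_top
    rw [Ideal.eq_top_iff_one, hmem𝔭, h, mul_zero]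
  set W : Submodule ℂ V := LinearMap.range (ρ e) with hW
  have hWne : W ≠ ⊥ := by
    intro h
    rw [hW, LinearMap.range_eq_bot] at h
    exact he0 (hρ (by rw [h, map_zero]))
  obtain ⟨w, hwW, hw0, hev⟩ := exists_common_eigenvector (Set.range ρ)
    (by
      rintro _ ⟨s, rfl⟩ _ ⟨t, rfl⟩
      show ρ s * ρ t = ρ t * ρ s
      rw [← map_mul, ← map_mul, mul_comm]) _ W rfl hWne
    (by
      rintro _ ⟨s, rfl⟩ w ⟨v, rfl⟩
      refine ⟨ρ s v, ?_⟩
      have : ρ e * ρ s = ρ s * ρ e := by rw [← map_mul, ← map_mul, mul_comm]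
      exact congrArg (fun f : Module.End ℂ V => f v) this)
  have hev' : ∀ t : T, ∃ c : ℂ, ρ t w = c • w := fun t => hev (ρ t) ⟨t, rfl⟩
  choose μ₀ hμ₀ using hev'
  have hinj : ∀ c c' : ℂ, c • w = c' • w → c = c' := fun c c' h =>
    smul_left_injective ℂ hw0 h
  let μ : T →+* ℂ :=
    { toFun := μ₀
      map_one' := by
        apply hinj
        rw [← hμ₀, map_one, one_smul]; rfl
      map_mul' := fun s t => by
        apply hinj
        rw [← hμ₀, map_mul, Module.End.mul_apply, hμ₀ t, map_smul, hμ₀ s, smul_smul, mul_comm]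
      map_zero' := by
        apply hinj
        rw [← hμ₀, map_zero, zero_smul]; rfl
      map_add' := fun s t => by
        apply hinj
        rw [← hμ₀, map_add, LinearMap.add_apply, hμ₀ s, hμ₀ t, add_smul] }
  have hμ : ∀ t, ρ t w = μ t • w := hμ₀
  have hμint : ∀ t, μ t ∈ integralClosure ℤ ℂ := by
    intro t
    have h1 : IsIntegral ℤ t := Algebra.IsIntegral.isIntegral t
    exact h1.map μ.toIntAlgHom
  let μ' : T →+* integralClosure ℤ ℂ :=
    (AlgHom.codRestrict μ.toIntAlgHom (integralClosure ℤ ℂ) hμint).toRingHom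
  have hμ'coe : ∀ t, ((μ' t : integralClosure ℤ ℂ) : ℂ) = μ t := fun t => rfl
  -- `𝔭 ≤ ker μ`
  have h𝔭ker : ∀ t ∈ 𝔭, μ t = 0 := by
    intro t ht
    obtain ⟨v, hv⟩ := hwW
    have h1 : ρ t w = 0 := by
      rw [← hv, ← Module.End.mul_apply, ← map_mul, (hmem𝔭 t).1 ht, map_zero]; rfl
    rw [hμ] at h1
    exact (smul_eq_zero.mp h1).resolve_right hw0
  have hker_le : RingHom.ker μ ≤ 𝔭 := by
    by_contra hnot
    obtain ⟨x, hxker, hx𝔭⟩ := SetLike.not_le_iff_exists.mp hnot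
    have hlt := Ideal.comap_lt_comap_of_integral_mem_sdiff (R := ℤ) (I := 𝔭) (J := RingHom.ker μ)
      (fun t ht => (RingHom.mem_ker).2 (h𝔭ker t ht)) (x := x) ⟨hxker, hx𝔭⟩
      (Algebra.IsIntegral.isIntegral x)
    have hbot : (RingHom.ker μ).comap (algebraMap ℤ T) = ⊥ := by
      rw [eq_bot_iff]
      intro n hn
      rw [Ideal.mem_comap, RingHom.mem_ker] at hn
      have : ((n : ℤ) : ℂ) = 0 := by simpa using hn
      simpa using this
    rw [hbot] at hlt
    exact not_lt_bot hlt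
  have hker' : RingHom.ker μ' ≤ 𝔪₁ := by
    intro t ht
    apply h𝔭le
    apply hker_le
    rw [RingHom.mem_ker] at ht ⊢
    rw [← hμ'coe, ht]; rfl
  let _ : Algebra T (integralClosure ℤ ℂ) := μ'.toAlgebra
  have hInt' : Algebra.IsIntegral T (integralClosure ℤ ℂ) := by
    constructor
    intro x
    have hx : IsIntegral ℤ x := Algebra.IsIntegral.isIntegral x
    exact hx.tower_top
  obtain ⟨𝔪', h𝔪'max, h𝔪'comap⟩ :=
    Ideal.exists_ideal_over_maximal_of_isIntegral (S := integralClosure ℤ ℂ) 𝔪₁ hker'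
  refine ⟨w, μ', 𝔪', hw0, fun t => ?_, h𝔪'max, ?_⟩
  · rw [hμ'coe]; exact hμ t
  · intro t ht
    have : t ∈ 𝔪'.comap (algebraMap T (integralClosure ℤ ℂ)) := by
      rw [h𝔪'comap]; exact hle ht
    exact this

end Fermat.Agent.H7
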